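import Fermat.Agent.S31.Wiring
import Fermat.Agent.R.H2_SepTFinal
import Fermat.Agent.Lib.FrobDensity.Main

/-!
# S31 from `Stmt_S30` alone (helper86, cluster R)

All algebraic leaves of the wiring are proved (Frobenius density: item 61; separation of the
Hecke algebra: leaves L3a, L3c).  What is left is the existence statement `Stmt_S30`
(= the frozen statement S30).
-/

set_option autoImplicit false

open Polynomial IsLocalRing

namespace Fermat.Agent.R

/-- `Stmt_SepAll`, unconditional. -/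
theorem stmt_SepAll : Stmt_SepAll := by
  intro N _ S p hp _ hNS
  have : Fact p.Prime := ⟨hp⟩
  exact H2.stmt_Sep_final N S p (fun q hq hd => Finset.mem_coe.2 (hNS q hq hd))

end Fermat.Agent.R

namespace Fermat.Agent.S31

open Fermat.Agent.R

variable {p : ℕ} {N : ℕ} [NeZero N] {S : Finset ℕ}
  {𝒪 : Type} [CommRing 𝒪] [IsDomain 𝒪] [IsDiscreteValuationRing 𝒪]
  [IsAdicComplete (IsLocalRing.maximalIdeal 𝒪) 𝒪]
  {θ : CuspForm.heckeAlgebra N 2 (↑S : Set ℕ) →+* IsLocalRing.ResidueField 𝒪}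
  {T : Type} [CommRing T] [IsLocalRing T] [IsNoetherianRing T]
  [IsAdicComplete (IsLocalRing.maximalIdeal T) T] [Algebra 𝒪 T] [IsLocalHom (algebraMap 𝒪 T)]
  [Module.Finite 𝒪 T] [Module.Free 𝒪 T]

/-- S31 from S30. -/
theorem of_S30 (hS30 : Stmt_S30) (hp : p.Prime)
    (hp𝒪 : (p : 𝒪) ∈ IsLocalRing.maximalIdeal 𝒪) (hpS : p ∈ S)
    (hNS : ∀ q : ℕ, q.Prime → q ∣ N → q ∈ S)
    (H : CuspForm.HeckeGaloisRepDatum N (↑S : Set ℕ) 𝒪 θ T)
    (q : ℕ) (hq : q.Prime) (hqS : q ∉ S) :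
    H.ρ.IsUnramifiedAt q :=
  wiring hS30 Fermat.Agent.Lib.FrobDensity.stmt_FD stmt_SepAll hp hp𝒪 hpS hNS H q hq hqS

end Fermat.Agent.S31
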