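import Fermat.Agent.R.Transfer
import Fermat.Agent.R.H86_BN

/-!
# S31 wiring (helper86, cluster R)

`Fermat.Agent.S31.wiring`: the frozen statement S31 (a Hecke–Galois datum is unramified outside
`S`) from

* `Stmt_S30`    : the frozen statement S30 (cluster R/G),
* `Stmt_FD`     : Frobenius density, division form (item 61),
* `Stmt_SepAll` : `p`-adic separation of the anemic Hecke algebras (leaf L3c).

No Carayol isomorphism is used: `ρ τ = 1` is detected by traces (Burnside–Nakayama, `H86_BN`),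
and the trace identity `tr ρ (τ h) = tr ρ h` is transferred from the `p`-adic points of the
Hecke algebra (`R/Transfer.lean`).  The coefficient ring `𝒪` may have characteristic `p` and
`T` may be non-reduced.
-/

set_option autoImplicit false

open Polynomial IsLocalRing

namespace Fermat.Agent.R

/-- `p`-adic separation for all anemic Hecke algebras of residue characteristic `p`. -/
def Stmt_SepAll : Prop :=
  ∀ (N : ℕ) [NeZero N] (S : Finset ℕ) (p : ℕ), p.Prime → p ∈ S →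
    (∀ q : ℕ, q.Prime → q ∣ N → q ∈ S) → Stmt_Sep N S p

/-- The datum of a `HeckeGaloisRepDatum` gives `HasFrobCharpoly`. -/
lemma hasFrobCharpoly_datum {N : ℕ} [NeZero N] {S : Finset ℕ}
    {𝒪 : Type} [CommRing 𝒪] [IsDomain 𝒪] [IsDiscreteValuationRing 𝒪]
    [IsAdicComplete (IsLocalRing.maximalIdeal 𝒪) 𝒪]
    {θ : CuspForm.heckeAlgebra N 2 (↑S : Set ℕ) →+* IsLocalRing.ResidueField 𝒪}
    {T : Type} [CommRing T] [IsLocalRing T] [IsNoetherianRing T]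
    [IsAdicComplete (IsLocalRing.maximalIdeal T) T] [Algebra 𝒪 T] [IsLocalHom (algebraMap 𝒪 T)]
    [Module.Finite 𝒪 T] [Module.Free 𝒪 T]
    (H : CuspForm.HeckeGaloisRepDatum N (↑S : Set ℕ) 𝒪 θ T) : HasFrobCharpoly H.π H.ρ :=
  fun ℓ hℓ hℓN hℓS B hB σ hσ => H.charpoly_frob ℓ hℓ hℓN hℓS B hB σ hσ

/-- `p` lies in the maximal ideal of `T`. -/
lemma natCast_mem_maximalIdeal_of_algebra {p : ℕ}
    {𝒪 : Type} [CommRing 𝒪] [IsLocalRing 𝒪]
    {T : Type} [CommRing T] [IsLocalRing T] [Algebra 𝒪 T] [IsLocalHom (algebraMap 𝒪 T)]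
    (hp𝒪 : (p : 𝒪) ∈ maximalIdeal 𝒪) : (p : T) ∈ maximalIdeal T := by
  rw [mem_maximalIdeal, mem_nonunits_iff] at hp𝒪 ⊢
  intro hu
  apply hp𝒪
  have : (p : T) = algebraMap 𝒪 T (p : 𝒪) := by rw [map_natCast]
  rw [this] at hu
  exact isUnit_of_map_unit (algebraMap 𝒪 T) _ hu

end Fermat.Agent.R

namespace Fermat.Agent.S31

open Fermat.Agent.R

variable {p : ℕ} {N : ℕ} [NeZero N] {S : Finset ℕ}
  {𝒪 : Type} [CommRing 𝒪] [IsDomain 𝒪] [IsDiscreteValuationRing 𝒪]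
  [IsAdicComplete (IsLocalRing.maximalIdeal 𝒪) 𝒪]
  {θ : CuspForm.heckeAlgebra N 2 (↑S : Set ℕ) →+* IsLocalRing.ResidueField 𝒪}
  {T : Type} [CommRing T] [IsLocalRing T] [IsNoetherianRing T]
  [IsAdicComplete (IsLocalRing.maximalIdeal T) T] [Algebra 𝒪 T] [IsLocalHom (algebraMap 𝒪 T)]
  [Module.Finite 𝒪 T] [Module.Free 𝒪 T]

/-- S31 from S30, Frobenius density and separation of the Hecke algebra. -/
theorem wiring (hS30 : Stmt_S30) (hFD : Stmt_FD) (hSep : Stmt_SepAll) (hp : p.Prime)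
    (hp𝒪 : (p : 𝒪) ∈ IsLocalRing.maximalIdeal 𝒪) (hpS : p ∈ S)
    (hNS : ∀ q : ℕ, q.Prime → q ∣ N → q ∈ S)
    (H : CuspForm.HeckeGaloisRepDatum N (↑S : Set ℕ) 𝒪 θ T)
    (q : ℕ) (hq : q.Prime) (hqS : q ∉ S) :
    H.ρ.IsUnramifiedAt q := by
  intro P hP τ hτ
  have hqN : ¬ q ∣ N := fun hd => hqS (hNS q hq hd)
  have hqp : q ≠ p := fun h => hqS (h ▸ hpS)
  have : Fact p.Prime := ⟨hp⟩
  apply H86.eq_one_of_forall_trace_mul H.ρ H.residual_absIrr τ
  intro g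
  have hcp : (H.ρ.ρ (τ * g)).charpoly = (H.ρ.ρ g).charpoly := by
    refine transfer_charpoly hp.ne_zero hFD (hSep N S p hp hpS hNS) hNS
      (natCast_mem_maximalIdeal_of_algebra hp𝒪) H.π H.ρ (hasFrobCharpoly_datum H) (τ * g) g ?_
    intro P'
    obtain ⟨𝒪'', i1, i2, i3, i4, i5, i6, i7, i8, i9, hinj, ρ', hcp', hunr⟩ :=
      hS30 p N S hpS hNS P'.R P'.hp P'.χ
    refine ⟨𝒪'', i1, i2, i3, i6, algebraMap P'.R 𝒪'', hinj, i9, ρ', ?_, ?_⟩
    · intro ℓ hℓ hℓN hℓS B hB σ hσ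
      exact hcp' ℓ hℓ hℓN hℓS B hB σ hσ
    · have h1 : ρ'.ρ τ = 1 := hunr q hq hqN hqp P hP τ hτ
      rw [map_mul, h1, one_mul]
  exact (trace_det_eq_of_charpoly_eq H.ρ.finrank_eq H.ρ.finrank_eq _ _ hcp).1

end Fermat.Agent.S31
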